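import Fermat.Agent.CyclotomicPID.Generic
import Mathlib.Analysis.Real.Pi.Bounds

/-!
# `ℤ[ζ_11]` is a principal ideal domain
-/

set_option autoImplicit false

open NumberField Polynomial Module IsCyclotomicExtension
open scoped Real

namespace Fermat.Agent.CyclotomicPID

local instance fact_prime_11 : Fact (Nat.Prime 11) := ⟨by norm_num⟩

variable {K : Type*} [Field K] [NumberField K] [IsCyclotomicExtension {11} ℚ K]
  {ζ : K} (hζ : IsPrimitiveRoot ζ 11)

omit [NumberField K] [IsCyclotomicExtension {11} ℚ K] in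
lemma geom_11 [CharZero K] : 1 + hζ.toInteger + hζ.toInteger ^ 2 + hζ.toInteger ^ 3 + hζ.toInteger ^ 4 + hζ.toInteger ^ 5 + hζ.toInteger ^ 6 + hζ.toInteger ^ 7 + hζ.toInteger ^ 8 + hζ.toInteger ^ 9 + hζ.toInteger ^ 10 = 0 := by
  have := hζ.toInteger_isPrimitiveRoot.geom_sum_eq_zero (by norm_num : 1 < 11)
  simpa [Finset.sum_range_succ] using this

include hζ in
lemma principal_11_23 : ∃ P ∈ (Ideal.span {((23 : ℕ) : ℤ)}).primesOver (𝓞 K),
    Submodule.IsPrincipal P := by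
  have : Fact (Nat.Prime 23) := ⟨by norm_num⟩
  have hΦ := geom_11 hζ
  set z := hζ.toInteger with hz
  refine exists_principal hζ (f := 1) (α := (1 : 𝓞 K) + (1 : 𝓞 K) * z ^ 1 + (1 : 𝓞 K) * z ^ 3)
    (g := ![-2, -14, -17, -12, -5, -9, -10, -16, -6, -15]) (c := ![4])
    (δ := ev z (![1, 3, 3, 2, 1, 2, 2, 3, 1, 3] : Fin 10 → ℤ)) (by norm_num) ?_ ?_ ⟨0, by decide⟩ ?_
  · exact Nat.one_le_iff_ne_zero.2 (orderOf_pos_iff.2
      (isOfFinOrder_iff_pow_eq_one.2 ⟨10, by norm_num, by decide⟩)).ne'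
  · simp only [← hz, ev, Fin.sum_univ_succ, Fin.sum_univ_zero]
    simp
    linear_combination ((-25 : 𝓞 K) + (9 : 𝓞 K) * z ^ 1 + (-15 : 𝓞 K) * z ^ 2) * hΦ
  · simp only [← hz, ev, Fin.sum_univ_succ, Fin.sum_univ_zero]
    simp
    linear_combination ((-5 : 𝓞 K) + (2 : 𝓞 K) * z ^ 1 + (-3 : 𝓞 K) * z ^ 2) * hΦ

variable (K) in
lemma minkowski_11_lt : (4 / π) ^ InfinitePlace.nrComplexPlaces K *
    ((finrank ℚ K).factorial / (finrank ℚ K : ℝ) ^ (finrank ℚ K) * √|(discr K : ℝ)|) <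
      ((59 + 1 : ℕ) : ℝ) := by
  rw [IsCyclotomicExtension.Rat.discr_prime 11 K, IsCyclotomicExtension.Rat.finrank 11 K,
    IsCyclotomicExtension.Rat.nrComplexPlaces_eq_totient_div_two 11,
    Nat.totient_prime (Fact.out : Nat.Prime 11)]
  have h4 : (4 / π) ^ 5 ≤ (4 / 3.14 : ℝ) ^ 5 := by
    gcongr
    exact Real.pi_gt_d2.le
  have hs : √((11 : ℝ) ^ 9) ≤ 48559 := by
    rw [Real.sqrt_le_iff]
    norm_num
  have hpos : (0 : ℝ) ≤ (4 / π) ^ 5 := by positivity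
  norm_num [Nat.factorial] at hs ⊢
  calc _ ≤ (4 / 3.14 : ℝ) ^ 5 * ((3628800 : ℝ) / (10 : ℝ) ^ 10 * 48559) := by
        norm_num at h4 hs hpos ⊢
        nlinarith [Real.sqrt_nonneg ((11:ℝ) ^ 9)]
    _ < _ := by norm_num

variable (K) in
/-- The ring of integers of `ℚ(ζ_11)` is a principal ideal domain. -/
theorem pid_eleven : IsPrincipalIdealRing (𝓞 K) := by
  have hζ := IsCyclotomicExtension.zeta_spec 11 ℚ K
  refine pid_of_certificate hζ 59 6 (by norm_num) (minkowski_11_lt K) [23] ?_ ?_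
  ·
    intro q hq
    fin_cases hq
    · exact fun _ => principal_11_23 hζ
  · decide +kernel

end Fermat.Agent.CyclotomicPID
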