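import Mathlib.NumberTheory.NumberField.Cyclotomic.PID
import Mathlib.NumberTheory.NumberField.Cyclotomic.Ideal
import Mathlib.Algebra.Ring.GeomSum
import Mathlib.Tactic

/-!
# Tools for showing that `ℤ[ζ_p]` is a PID from explicit generators
-/

set_option autoImplicit false

open NumberField Polynomial Module IsCyclotomicExtension
open scoped Real

namespace Fermat.Agent.CyclotomicPID

/-- The element `∑ i, b i * x ^ i`. -/
def ev {R : Type*} [CommRing R] (x : R) {n : ℕ} (b : Fin n → ℤ) : R :=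
  ∑ i : Fin n, (b i : R) * x ^ (i : ℕ)

variable {K : Type*} [Field K] [NumberField K] {p : ℕ} [hp : Fact p.Prime]
  [IsCyclotomicExtension {p} ℚ K] {ζ : K} (hζ : IsPrimitiveRoot ζ p)

lemma dim_eq : hζ.integralPowerBasis.dim = p - 1 := by
  rw [IsPrimitiveRoot.integralPowerBasis_dim, Nat.totient_prime hp.out]

lemma dvd_coeff {q : ℤ} {b : Fin (p - 1) → ℤ} (h : (q : 𝓞 K) ∣ ev hζ.toInteger b)
    (i : Fin (p - 1)) : q ∣ b i := by
  obtain ⟨y, hy⟩ := h
  set B := hζ.integralPowerBasis.basis.reindex (finCongr (dim_eq hζ)) with hB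
  have he : ev hζ.toInteger b = ∑ j, b j • B j := by
    simp [ev, hB, zsmul_eq_mul, PowerBasis.coe_basis, IsPrimitiveRoot.integralPowerBasis_gen]
  have h1 : B.repr (ev hζ.toInteger b) i = b i := by
    rw [he, B.repr_sum_self]
  rw [hy, ← zsmul_eq_mul, map_zsmul] at h1
  exact ⟨B.repr y i, by simpa using h1.symm⟩

omit hp [NumberField K] in
lemma mk_ev_eq {n : ℕ} (I : Ideal (𝓞 K)) (x : 𝓞 K) (b : Fin n → ℤ) :
    Ideal.Quotient.mk I (ev x b) = ev (Ideal.Quotient.mk I x) b := by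
  simp [ev]

/-- If `q ∈ (α)` and a monic polynomial of degree `f` vanishes at `ζ` mod `α`, then the
quotient by `α` has at most `q ^ f` elements. -/
lemma absNorm_le {q f : ℕ} [NeZero q] {α : 𝓞 K} (hq : α ∣ (q : 𝓞 K))
    {c : Fin f → ℤ} (hc : α ∣ hζ.toInteger ^ f - ev hζ.toInteger c) :
    Ideal.absNorm (Ideal.span {α}) ≤ q ^ f := by
  set I := Ideal.span {α}
  set z := Ideal.Quotient.mk I hζ.toInteger with hz
  have hq0 : (q : 𝓞 K ⧸ I) = 0 := by
    rw [← map_natCast (Ideal.Quotient.mk I), Ideal.Quotient.eq_zero_iff_mem,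
      Ideal.mem_span_singleton]
    exact hq
  set h : ℤ[X] := X ^ f - ∑ i : Fin f, C (c i) * X ^ (i : ℕ) with hh
  have hm : h.Monic := monic_X_pow_sub (degree_sum_fin_lt c)
  have hz0 : aeval z h = 0 := by
    have : Ideal.Quotient.mk I (hζ.toInteger ^ f - ev hζ.toInteger c) = 0 :=
      Ideal.Quotient.eq_zero_iff_mem.2 (Ideal.mem_span_singleton.2 hc)
    rw [map_sub, map_pow, mk_ev_eq] at this
    simpa [hh, ev, hz] using this
  let φ : (Fin f → Fin q) → 𝓞 K ⧸ I := fun g => ∑ i, ((g i : ℕ) : 𝓞 K ⧸ I) * z ^ (i : ℕ)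
  have hφ : Function.Surjective φ := by
    intro x
    obtain ⟨y, rfl⟩ := Ideal.Quotient.mk_surjective x
    obtain ⟨P, -, rfl⟩ := hζ.integralPowerBasis.exists_eq_aeval y
    rw [IsPrimitiveRoot.integralPowerBasis_gen]
    have e1 : Ideal.Quotient.mk I (aeval hζ.toInteger P) = aeval z P := by
      rw [hz, ← Ideal.Quotient.algebraMap_eq, aeval_algebraMap_apply]
    rw [e1, ← modByMonic_add_div P h, map_add, map_mul, hz0, zero_mul, add_zero]
    set R := P %ₘ h
    have hdeg : R.degree < (f : WithBot ℕ) :=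
      lt_of_lt_of_eq (degree_modByMonic_lt P hm)
        (by rw [hh]; exact degree_sub_eq_left_of_degree_lt
              (by rw [degree_X_pow]; exact degree_sum_fin_lt c) |>.trans (degree_X_pow f))
    have hR : R = ∑ i : Fin f, C (R.coeff i) * X ^ (i : ℕ) := by
      simp only [C_mul_X_pow_eq_monomial]
      rw [sum_fin (fun i x => monomial i x) (by simp) hdeg, sum_monomial_eq]
    refine ⟨fun i => ⟨(R.coeff i % (q : ℤ)).toNat, ?_⟩, ?_⟩
    · have := Int.emod_lt_of_pos (R.coeff i) (Int.natCast_pos.2 (NeZero.pos q))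
      have := Int.emod_nonneg (R.coeff i) (Int.natCast_ne_zero.2 (NeZero.ne q))
      omega
    · conv_rhs => rw [hR]
      simp only [φ, map_sum, map_mul, map_pow, aeval_X, eq_intCast, map_intCast]
      refine Finset.sum_congr rfl fun i _ => ?_
      congr 1
      have hnn := Int.emod_nonneg (R.coeff i) (Int.natCast_ne_zero.2 (NeZero.ne q))
      rw [← Int.cast_natCast (R := 𝓞 K ⧸ I), Int.toNat_of_nonneg hnn]
      conv_rhs => rw [← Int.emod_add_mul_ediv (R.coeff i) q]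
      simp [hq0]
  rw [Ideal.absNorm_apply, Submodule.cardQuot_apply]
  calc Nat.card (𝓞 K ⧸ I) ≤ Nat.card (Fin f → Fin q) := Nat.card_le_card_of_surjective φ hφ
    _ = q ^ f := by simp

/-- A certificate that one of the primes above `q` is principal. -/
theorem exists_principal {q f : ℕ} [hq : Fact q.Prime] (hpq : ¬ q ∣ p)
    (hf : f ≤ orderOf (q : ZMod p)) {α : 𝓞 K} {g : Fin (p - 1) → ℤ} {δ : 𝓞 K}
    {c : Fin f → ℤ} (h1 : α * ev hζ.toInteger g = q) (hg : ∃ i, ¬ (q : ℤ) ∣ g i)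
    (h2 : hζ.toInteger ^ f - ev hζ.toInteger c = α * δ) :
    ∃ P ∈ (Ideal.span {(q : ℤ)}).primesOver (𝓞 K), Submodule.IsPrincipal P := by
  have hnu : ¬ IsUnit α := by
    rintro ⟨u, rfl⟩
    obtain ⟨i, hi⟩ := hg
    refine hi (dvd_coeff hζ ?_ i)
    refine ⟨(↑u⁻¹ : 𝓞 K), ?_⟩
    rw [Int.cast_natCast, ← h1, mul_comm (u : 𝓞 K), mul_assoc, Units.mul_inv, mul_one]
  have hne : Ideal.span {α} ≠ ⊤ := by
    rwa [Ne, Ideal.span_singleton_eq_top]
  obtain ⟨Q, hQ, hle⟩ := Ideal.exists_le_maximal _ hne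
  have hqQ : (q : 𝓞 K) ∈ Q := hle (Ideal.mem_span_singleton.2 ⟨_, h1.symm⟩)
  have : Q.LiesOver (Ideal.span {(q : ℤ)}) := by
    rw [Ideal.liesOver_iff]
    refine (Int.ideal_span_isMaximal_of_prime q).eq_of_le (Ideal.IsPrime.under ℤ Q).ne_top ?_
    simpa [Ideal.span_singleton_le_iff_mem, Ideal.mem_comap] using hqQ
  refine ⟨Q, ⟨hQ.isPrime, inferInstance⟩, ?_⟩
  have hα0 : α ≠ 0 := by
    intro h
    rw [h, zero_mul] at h1
    exact NeZero.natCast_ne q (𝓞 K) h1.symm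
  have hnQ : Ideal.absNorm Q = q ^ orderOf (q : ZMod p) := by
    have : NeZero p := ⟨hp.out.ne_zero⟩
    rw [← Ideal.pow_inertiaDeg (P := Q) (p := q),
      IsCyclotomicExtension.Rat.inertiaDeg_eq_of_not_dvd q K Q hpq]
  obtain ⟨J, hJ⟩ := Ideal.dvd_iff_le.2 hle
  have hn := absNorm_le hζ ⟨_, h1.symm⟩ ⟨δ, h2⟩
  rw [hJ, map_mul, hnQ] at hn
  have hJ0 : Ideal.absNorm J ≠ 0 := by
    rw [Ne, Ideal.absNorm_eq_zero_iff]
    rintro rfl
    simp [hα0] at hJ
  have hJ1 : Ideal.absNorm J = 1 := by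
    have hle' : q ^ f ≤ q ^ orderOf (q : ZMod p) := Nat.pow_le_pow_right hq.out.pos hf
    have hpos : 0 < q ^ orderOf (q : ZMod p) := pow_pos hq.out.pos _
    have : q ^ orderOf (q : ZMod p) * Ideal.absNorm J ≤ q ^ orderOf (q : ZMod p) * 1 := by omega
    have := Nat.le_of_mul_le_mul_left this hpos
    omega
  rw [Ideal.absNorm_eq_one_iff] at hJ1
  subst hJ1
  rw [Ideal.mul_top] at hJ
  exact ⟨α, hJ.symm⟩

/-- The prime above `p` is principal. -/
lemma exists_principal_self (hζ : IsPrimitiveRoot ζ p) :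
    ∃ P ∈ (Ideal.span {(p : ℤ)}).primesOver (𝓞 K), Submodule.IsPrincipal P := by
  have hlies : (Ideal.span {hζ.toInteger - 1}).LiesOver (Ideal.span {(p : ℤ)}) := by
    have h : IsCyclotomicExtension {p ^ (0 + 1)} ℚ K := by simpa using ‹_›
    have h' : IsPrimitiveRoot ζ (p ^ (0 + 1)) := by simpa using hζ
    simpa using IsCyclotomicExtension.Rat.liesOver_span_zeta_sub_one p 0 h'
  exact ⟨_, ⟨IsCyclotomicExtension.Rat.isPrime_span_zeta_sub_one' p hζ, hlies⟩, ⟨_, rfl⟩⟩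

/-- PID criterion: every prime up to the bound `N` is either the ramified one, has big residue
degree, or has an exhibited principal prime above it. -/
theorem pid_of_certificate (hζ : IsPrimitiveRoot ζ p) (N B : ℕ) (hB : N < 2 ^ B)
    (hM : (4 / π) ^ InfinitePlace.nrComplexPlaces K *
      ((finrank ℚ K).factorial / (finrank ℚ K : ℝ) ^ (finrank ℚ K) * √|(discr K : ℝ)|) <
        (N + 1 : ℕ))
    (G : List ℕ)
    (hG : ∀ q ∈ G, q.Prime →
      ∃ P ∈ (Ideal.span {(q : ℤ)}).primesOver (𝓞 K), Submodule.IsPrincipal P)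
    (hdec : ∀ q ∈ List.range (N + 1), 2 ≤ q → q ∉ G → q ≠ p →
      (∀ d ∈ List.range 18, 2 ≤ d → d < q → q % d ≠ 0) →
      ∀ f ∈ List.range B, 1 ≤ f → q ^ f ≤ N → q ^ f % p ≠ 1) :
    IsPrincipalIdealRing (𝓞 K) := by
  have : NeZero p := ⟨hp.out.ne_zero⟩
  have : IsGalois ℚ K := IsCyclotomicExtension.isGalois {p} ℚ K
  apply RingOfIntegers.isPrincipalIdealRing_of_isPrincipal_of_lt_or_isPrincipal_of_mem_primesOver_of_mem_Icc
  intro q hq hqp
  set F := ⌊(4 / π) ^ InfinitePlace.nrComplexPlaces K *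
      ((finrank ℚ K).factorial / (finrank ℚ K : ℝ) ^ (finrank ℚ K) * √|(discr K : ℝ)|)⌋₊ with hF
  have hFN : F < N + 1 := (Nat.floor_lt (by positivity)).2 hM
  have hqN : q < N + 1 := lt_of_le_of_lt (Finset.mem_Icc.1 hq).2 (by simpa [hF] using hFN)
  have : Fact q.Prime := ⟨hqp⟩
  by_cases hqG : q ∈ G
  · obtain ⟨P, hP, hP'⟩ := hG q hqG hqp
    exact ⟨P, hP, Or.inr hP'⟩
  by_cases hqp' : q = p
  · subst hqp'
    obtain ⟨P, hP, hP'⟩ := exists_principal_self hζ
    exact ⟨P, hP, Or.inr hP'⟩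
  obtain ⟨P, hP1, hP2⟩ := (Ideal.span {(q : ℤ)}).nonempty_primesOver (S := 𝓞 K) |>.some
  refine ⟨P, ⟨hP1, hP2⟩, Or.inl ?_⟩
  have hndvd : ¬ q ∣ p := fun h => hqp' ((Nat.prime_dvd_prime_iff_eq hqp hp.out).1 h)
  rw [IsCyclotomicExtension.Rat.inertiaDeg_eq_of_not_dvd q K P hndvd]
  by_contra hlt
  set f := orderOf (q : ZMod p) with hf
  have hfN : q ^ f ≤ N := by
    have : q ^ f ≤ F := by simpa [hF] using not_lt.1 hlt
    omega
  have hu : IsUnit (q : ZMod p) :=
    (ZMod.isUnit_iff_coprime q p).2 ((Nat.coprime_primes hqp hp.out).2 hqp')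
  have hf1 : 1 ≤ f := by
    rw [hf, ← hu.unit_spec, orderOf_units]
    exact orderOf_pos _
  have hfB : f < B := by
    by_contra hB'
    have h1 : 2 ^ B ≤ q ^ f :=
      (Nat.pow_le_pow_right two_pos (not_lt.1 hB')).trans (Nat.pow_le_pow_left hqp.two_le f)
    omega
  refine hdec q (List.mem_range.2 hqN) hqp.two_le hqG hqp' ?_ f (List.mem_range.2 hfB) hf1 hfN ?_
  · intro d _ hd hdq h
    rcases hqp.eq_one_or_self_of_dvd d (Nat.dvd_of_mod_eq_zero h) with h | h <;> omega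
  · have h1 : ((q ^ f : ℕ) : ZMod p) = ((1 : ℕ) : ZMod p) := by
      push_cast
      exact pow_orderOf_eq_one _
    rw [ZMod.natCast_eq_natCast_iff'] at h1
    rwa [Nat.mod_eq_of_lt hp.out.one_lt] at h1

end Fermat.Agent.CyclotomicPID
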