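import Fermat.Agent.CyclotomicPID.Generic
import Mathlib.Analysis.Real.Pi.Bounds

/-!
# `ℤ[ζ_7]` is a principal ideal domain
-/

set_option autoImplicit false

open NumberField Polynomial Module IsCyclotomicExtension
open scoped Real

namespace Fermat.Agent.CyclotomicPID

local instance fact_prime_7 : Fact (Nat.Prime 7) := ⟨by norm_num⟩

variable {K : Type*} [Field K] [NumberField K] [IsCyclotomicExtension {7} ℚ K]
  {ζ : K} (hζ : IsPrimitiveRoot ζ 7)


variable (K) in
lemma minkowski_7_lt : (4 / π) ^ InfinitePlace.nrComplexPlaces K *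
    ((finrank ℚ K).factorial / (finrank ℚ K : ℝ) ^ (finrank ℚ K) * √|(discr K : ℝ)|) <
      ((4 + 1 : ℕ) : ℝ) := by
  rw [IsCyclotomicExtension.Rat.discr_prime 7 K, IsCyclotomicExtension.Rat.finrank 7 K,
    IsCyclotomicExtension.Rat.nrComplexPlaces_eq_totient_div_two 7,
    Nat.totient_prime (Fact.out : Nat.Prime 7)]
  have h4 : (4 / π) ^ 3 ≤ (4 / 3.14 : ℝ) ^ 3 := by
    gcongr
    exact Real.pi_gt_d2.le
  have hs : √((7 : ℝ) ^ 5) ≤ 130 := by
    rw [Real.sqrt_le_iff]
    norm_num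
  have hpos : (0 : ℝ) ≤ (4 / π) ^ 3 := by positivity
  norm_num [Nat.factorial] at hs ⊢
  calc _ ≤ (4 / 3.14 : ℝ) ^ 3 * ((720 : ℝ) / (6 : ℝ) ^ 6 * 130) := by
        norm_num at h4 hs hpos ⊢
        nlinarith [Real.sqrt_nonneg ((7:ℝ) ^ 5)]
    _ < _ := by norm_num

variable (K) in
/-- The ring of integers of `ℚ(ζ_7)` is a principal ideal domain. -/
theorem pid_seven : IsPrincipalIdealRing (𝓞 K) := by
  have hζ := IsCyclotomicExtension.zeta_spec 7 ℚ K
  refine pid_of_certificate hζ 4 3 (by norm_num) (minkowski_7_lt K) [] ?_ ?_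
  ·
    simp
  · decide +kernel

end Fermat.Agent.CyclotomicPID
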