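import Fermat.Agent.CyclotomicPID.Generic
import Mathlib.Analysis.Real.Pi.Bounds

/-!
# `ℤ[ζ_13]` is a principal ideal domain
-/

set_option autoImplicit false

open NumberField Polynomial Module IsCyclotomicExtension
open scoped Real

namespace Fermat.Agent.CyclotomicPID

local instance fact_prime_13 : Fact (Nat.Prime 13) := ⟨by norm_num⟩

variable {K : Type*} [Field K] [NumberField K] [IsCyclotomicExtension {13} ℚ K]
  {ζ : K} (hζ : IsPrimitiveRoot ζ 13)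

omit [NumberField K] [IsCyclotomicExtension {13} ℚ K] in
lemma geom_13 [CharZero K] : 1 + hζ.toInteger + hζ.toInteger ^ 2 + hζ.toInteger ^ 3 + hζ.toInteger ^ 4 + hζ.toInteger ^ 5 + hζ.toInteger ^ 6 + hζ.toInteger ^ 7 + hζ.toInteger ^ 8 + hζ.toInteger ^ 9 + hζ.toInteger ^ 10 + hζ.toInteger ^ 11 + hζ.toInteger ^ 12 = 0 := by
  have := hζ.toInteger_isPrimitiveRoot.geom_sum_eq_zero (by norm_num : 1 < 13)
  simpa [Finset.sum_range_succ] using this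

include hζ in
lemma principal_13_3 : ∃ P ∈ (Ideal.span {((3 : ℕ) : ℤ)}).primesOver (𝓞 K),
    Submodule.IsPrincipal P := by
  have : Fact (Nat.Prime 3) := ⟨by norm_num⟩
  have hΦ := geom_13 hζ
  set z := hζ.toInteger with hz
  refine exists_principal hζ (f := 3) (α := (1 : 𝓞 K) + (1 : 𝓞 K) * z ^ 1 + (-1 : 𝓞 K) * z ^ 3)
    (g := ![-1, 0, -1, -1, 0, -2, 0, -1, -2, 1, -3, 0]) (c := ![1, 1, 0])
    (δ := ev z (![-1, 0, 0, 0, 0, 0, 0, 0, 0, 0, 0, 0] : Fin 12 → ℤ)) (by norm_num) ?_ ?_ ⟨0, by decide⟩ ?_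
  · exact (orderOf_eq_prime (by decide) (by decide)).ge
  · simp only [← hz, ev, Fin.sum_univ_succ, Fin.sum_univ_zero]
    simp
    linear_combination ((-4 : 𝓞 K) + (3 : 𝓞 K) * z ^ 1) * hΦ
  · simp only [← hz, ev, Fin.sum_univ_succ, Fin.sum_univ_zero]
    simp
    linear_combination ((0 : 𝓞 K)) * hΦ

include hζ in
lemma principal_13_53 : ∃ P ∈ (Ideal.span {((53 : ℕ) : ℤ)}).primesOver (𝓞 K),
    Submodule.IsPrincipal P := by
  have : Fact (Nat.Prime 53) := ⟨by norm_num⟩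
  have hΦ := geom_13 hζ
  set z := hζ.toInteger with hz
  refine exists_principal hζ (f := 1) (α := (1 : 𝓞 K) + (1 : 𝓞 K) * z ^ 1 + (1 : 𝓞 K) * z ^ 3)
    (g := ![1, -24, -35, -25, -10, -14, -20, -29, -16, -23, -7, -36]) (c := ![36])
    (δ := ev z (![0, 17, 24, 17, 7, 10, 14, 20, 11, 16, 5, 25] : Fin 12 → ℤ)) (by norm_num) ?_ ?_ ⟨0, by decide⟩ ?_
  · exact Nat.one_le_iff_ne_zero.2 (orderOf_pos_iff.2
      (isOfFinOrder_iff_pow_eq_one.2 ⟨12, by norm_num, by decide⟩)).ne'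
  · simp only [← hz, ev, Fin.sum_univ_succ, Fin.sum_univ_zero]
    simp
    linear_combination ((-52 : 𝓞 K) + (29 : 𝓞 K) * z ^ 1 + (-36 : 𝓞 K) * z ^ 2) * hΦ
  · simp only [← hz, ev, Fin.sum_univ_succ, Fin.sum_univ_zero]
    simp
    linear_combination ((-36 : 𝓞 K) + (20 : 𝓞 K) * z ^ 1 + (-25 : 𝓞 K) * z ^ 2) * hΦ

include hζ in
lemma principal_13_131 : ∃ P ∈ (Ideal.span {((131 : ℕ) : ℤ)}).primesOver (𝓞 K),
    Submodule.IsPrincipal P := by
  have : Fact (Nat.Prime 131) := ⟨by norm_num⟩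
  have hΦ := geom_13 hζ
  set z := hζ.toInteger with hz
  refine exists_principal hζ (f := 1) (α := (1 : 𝓞 K) + (-1 : 𝓞 K) * z ^ 1 + (-1 : 𝓞 K) * z ^ 3)
    (g := ![111, 78, 17, 67, 84, 40, 46, 69, 48, 33, 41, 28]) (c := ![80])
    (δ := ev z (![-68, -47, -10, -41, -51, -24, -28, -42, -29, -20, -25, -17] : Fin 12 → ℤ)) (by norm_num) ?_ ?_ ⟨0, by decide⟩ ?_
  · exact Nat.one_le_iff_ne_zero.2 (orderOf_pos_iff.2
      (isOfFinOrder_iff_pow_eq_one.2 ⟨12, by norm_num, by decide⟩)).ne'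
  · simp only [← hz, ev, Fin.sum_univ_succ, Fin.sum_univ_zero]
    simp
    linear_combination ((-20 : 𝓞 K) + (-13 : 𝓞 K) * z ^ 1 + (-28 : 𝓞 K) * z ^ 2) * hΦ
  · simp only [← hz, ev, Fin.sum_univ_succ, Fin.sum_univ_zero]
    simp
    linear_combination ((-12 : 𝓞 K) + (-8 : 𝓞 K) * z ^ 1 + (-17 : 𝓞 K) * z ^ 2) * hΦ

include hζ in
lemma principal_13_79 : ∃ P ∈ (Ideal.span {((79 : ℕ) : ℤ)}).primesOver (𝓞 K),
    Submodule.IsPrincipal P := by
  have : Fact (Nat.Prime 79) := ⟨by norm_num⟩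
  have hΦ := geom_13 hζ
  set z := hζ.toInteger with hz
  refine exists_principal hζ (f := 1) (α := (1 : 𝓞 K) + (1 : 𝓞 K) * z ^ 1 + (-1 : 𝓞 K) * z ^ 4)
    (g := ![24, -25, -27, 10, -3, -39, -5, -2, -18, -38, 16, -35]) (c := ![64])
    (δ := ev z (![-19, 21, 22, -8, 3, 32, 4, 2, 15, 31, -13, 29] : Fin 12 → ℤ)) (by norm_num) ?_ ?_ ⟨0, by decide⟩ ?_
  · exact Nat.one_le_iff_ne_zero.2 (orderOf_pos_iff.2
      (isOfFinOrder_iff_pow_eq_one.2 ⟨12, by norm_num, by decide⟩)).ne'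
  · simp only [← hz, ev, Fin.sum_univ_succ, Fin.sum_univ_zero]
    simp
    linear_combination ((-55 : 𝓞 K) + (54 : 𝓞 K) * z ^ 1 + (-51 : 𝓞 K) * z ^ 2 + (35 : 𝓞 K) * z ^ 3) * hΦ
  · simp only [← hz, ev, Fin.sum_univ_succ, Fin.sum_univ_zero]
    simp
    linear_combination ((-45 : 𝓞 K) + (44 : 𝓞 K) * z ^ 1 + (-42 : 𝓞 K) * z ^ 2 + (29 : 𝓞 K) * z ^ 3) * hΦ

include hζ in
lemma principal_13_157 : ∃ P ∈ (Ideal.span {((157 : ℕ) : ℤ)}).primesOver (𝓞 K),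
    Submodule.IsPrincipal P := by
  have : Fact (Nat.Prime 157) := ⟨by norm_num⟩
  have hΦ := geom_13 hζ
  set z := hζ.toInteger with hz
  refine exists_principal hζ (f := 1) (α := (1 : 𝓞 K) + (-1 : 𝓞 K) * z ^ 1 + (1 : 𝓞 K) * z ^ 2 + (1 : 𝓞 K) * z ^ 4)
    (g := ![89, 86, 42, 77, 67, 25, 37, 56, 73, 113, 124, 76]) (c := ![75])
    (δ := ev z (![-43, -41, -20, -37, -32, -12, -18, -27, -35, -54, -59, -36] : Fin 12 → ℤ)) (by norm_num) ?_ ?_ ⟨0, by decide⟩ ?_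
  · exact Nat.one_le_iff_ne_zero.2 (orderOf_pos_iff.2
      (isOfFinOrder_iff_pow_eq_one.2 ⟨12, by norm_num, by decide⟩)).ne'
  · simp only [← hz, ev, Fin.sum_univ_succ, Fin.sum_univ_zero]
    simp
    linear_combination ((-68 : 𝓞 K) + (65 : 𝓞 K) * z ^ 1 + (48 : 𝓞 K) * z ^ 2 + (76 : 𝓞 K) * z ^ 3) * hΦ
  · simp only [← hz, ev, Fin.sum_univ_succ, Fin.sum_univ_zero]
    simp
    linear_combination ((-32 : 𝓞 K) + (31 : 𝓞 K) * z ^ 1 + (23 : 𝓞 K) * z ^ 2 + (36 : 𝓞 K) * z ^ 3) * hΦ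

variable (K) in
lemma minkowski_13_lt : (4 / π) ^ InfinitePlace.nrComplexPlaces K *
    ((finrank ℚ K).factorial / (finrank ℚ K : ℝ) ^ (finrank ℚ K) * √|(discr K : ℝ)|) <
      ((307 + 1 : ℕ) : ℝ) := by
  rw [IsCyclotomicExtension.Rat.discr_prime 13 K, IsCyclotomicExtension.Rat.finrank 13 K,
    IsCyclotomicExtension.Rat.nrComplexPlaces_eq_totient_div_two 13,
    Nat.totient_prime (Fact.out : Nat.Prime 13)]
  have h4 : (4 / π) ^ 6 ≤ (4 / 3.14 : ℝ) ^ 6 := by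
    gcongr
    exact Real.pi_gt_d2.le
  have hs : √((13 : ℝ) ^ 11) ≤ 1338721 := by
    rw [Real.sqrt_le_iff]
    norm_num
  have hpos : (0 : ℝ) ≤ (4 / π) ^ 6 := by positivity
  norm_num [Nat.factorial] at hs ⊢
  calc _ ≤ (4 / 3.14 : ℝ) ^ 6 * ((479001600 : ℝ) / (12 : ℝ) ^ 12 * 1338721) := by
        norm_num at h4 hs hpos ⊢
        nlinarith [Real.sqrt_nonneg ((13:ℝ) ^ 11)]
    _ < _ := by norm_num

variable (K) in
/-- The ring of integers of `ℚ(ζ_13)` is a principal ideal domain. -/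
theorem pid_thirteen : IsPrincipalIdealRing (𝓞 K) := by
  have hζ := IsCyclotomicExtension.zeta_spec 13 ℚ K
  refine pid_of_certificate hζ 307 9 (by norm_num) (minkowski_13_lt K) [3, 53, 131, 79, 157] ?_ ?_
  ·
    intro q hq
    fin_cases hq
    · exact fun _ => principal_13_3 hζ
    · exact fun _ => principal_13_53 hζ
    · exact fun _ => principal_13_131 hζ
    · exact fun _ => principal_13_79 hζ
    · exact fun _ => principal_13_157 hζ
  · decide +kernel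

end Fermat.Agent.CyclotomicPID
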